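/-
S48 wall (W), seat R-ASM (helper93): the ABSTRACT assembly with a diamond operator.

`Y` a `ℤ`-module with `G_ℚ`-action `gal`, operators `T ℓ`, `Dm ℓ` commuting with `gal`, and the
Eichler-Shimura relation with character
    `σ² Dm_ℓ - T_ℓ σ + ℓ = 0`     (σ a Frobenius at `ℓ ∤ N p`).
A common eigenvector `x ≠ 0` in `k ⊗ Y` (`T_ℓ x = a_ℓ x`, `Dm_ℓ x = d_ℓ x`, `d_ℓ ≠ 0`) gives a
two-dimensional representation with `charpoly(Frob_ℓ) = X² - (a_ℓ/d_ℓ) X + ℓ/d_ℓ`.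
Port of `S29/AsmCore.lean`, `S29/AsmMain.lean` (which are the case `Dm = 1`).
-/
import Mathlib
import Fermat.Agent.S29.AsmMain

set_option autoImplicit false
set_option linter.style.haveILetI false
set_option linter.unusedSectionVars false

noncomputable section

namespace Fermat.Agent.S48WR

open Fermat.Agent.F3 (GQ FrobDensityLite)
open Fermat.Agent.S29Core Fermat.Agent.S29Asm
open scoped TensorProduct
open Polynomial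

local notation "Qb" => AlgebraicClosure ℚ

section Core

variable {Y : Type} [AddCommGroup Y] (gal : GQ →* Module.End ℤ Y)
  (T Dm : Nat.Primes → Module.End ℤ Y)
variable {k : Type} [Field k] (N p : ℕ)

/-- The abstract hypotheses of the assembly with character. -/
structure InputsD (ω : GQ →* kˣ) (x : k ⊗[ℤ] Y) (a d : Nat.Primes → k) : Prop where
  dense : FrobDensityLite
  openStab : OpenStab gal
  commT : ∀ (ℓ : Nat.Primes) (σ : GQ), T ℓ * gal σ = gal σ * T ℓ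
  commD : ∀ (ℓ : Nat.Primes) (σ : GQ), Dm ℓ * gal σ = gal σ * Dm ℓ
  unram : ∀ ℓ : ℕ, ℓ.Prime → ¬ ℓ ∣ N * p → ∀ A : ValuationSubring Qb, A.LiesOverPrime ℓ →
    ∀ σ ∈ A.inertiaSubgroupIn ℚ, gal σ = 1
  quad : ∀ (ℓ : ℕ) (hℓ : ℓ.Prime), ¬ ℓ ∣ N * p → ∀ A : ValuationSubring Qb,
    A.LiesOverPrime ℓ → ∀ σ : GQ, A.IsFrobeniusAt σ ℓ →
      gal σ * gal σ * Dm ⟨ℓ, hℓ⟩ - T ⟨ℓ, hℓ⟩ * gal σ + (ℓ : ℤ) • (1 : Module.End ℤ Y) = 0
  x_ne : x ≠ 0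
  eigenT : ∀ ℓ : Nat.Primes, ¬ (ℓ : ℕ) ∣ N * p → (T ℓ).baseChange k x = a ℓ • x
  eigenD : ∀ ℓ : Nat.Primes, ¬ (ℓ : ℕ) ∣ N * p → (Dm ℓ).baseChange k x = d ℓ • x
  d_ne : ∀ ℓ : Nat.Primes, ¬ (ℓ : ℕ) ∣ N * p → d ℓ ≠ 0
  split : ∀ ℓ : Nat.Primes, ¬ (ℓ : ℕ) ∣ N * p →
    ∃ c e : k, c + e = a ℓ / d ℓ ∧ c * e = ((ℓ : ℕ) : k) / d ℓ
  ω_frob : ∀ (ℓ : ℕ) (hℓ : ℓ.Prime), ¬ ℓ ∣ N * p → ∀ A : ValuationSubring Qb,
    A.LiesOverPrime ℓ → ∀ σ : GQ, A.IsFrobeniusAt σ ℓ →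
      ((ω σ : kˣ) : k) = (ℓ : k) / d ⟨ℓ, hℓ⟩
  ω_inertia : ∀ ℓ : ℕ, ℓ.Prime → ¬ ℓ ∣ N * p → ∀ A : ValuationSubring Qb, A.LiesOverPrime ℓ →
    ∀ σ ∈ A.inertiaSubgroupIn ℚ, ω σ = 1
  ω_level : ∃ L : IntermediateField ℚ Qb, FiniteDimensional ℚ L ∧ ∀ σ : GQ, Fixes L σ → ω σ = 1
  Np_ne : N * p ≠ 0

variable {gal T Dm N p}
variable {ω : GQ →* kˣ} {x : k ⊗[ℤ] Y} {a d : Nat.Primes → k}

/-- an operator commuting with `gal` which has `x` as an eigenvector acts as a scalar on the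
orbit span. -/
lemma eigen_on_orbitSpan_of_comm (S : Module.End ℤ Y) (hS : ∀ σ : GQ, S * gal σ = gal σ * S)
    {c : k} (hx : S.baseChange k x = c • x) {w : k ⊗[ℤ] Y} (hw : w ∈ orbitSpan gal x) :
    S.baseChange k w = c • w := by
  induction hw using Submodule.span_induction with
  | mem w hw =>
    obtain ⟨σ, rfl⟩ := hw
    show S.baseChange k ((gal σ).baseChange k x) = c • (gal σ).baseChange k x
    have e : S.baseChange k ((gal σ).baseChange k x)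
        = (gal σ).baseChange k (S.baseChange k x) := by
      rw [← Module.End.mul_apply, ← Module.End.mul_apply, ← LinearMap.baseChange_mul,
        ← LinearMap.baseChange_mul, hS σ]
    rw [e, hx, map_smul]
  | zero => rw [map_zero, smul_zero]
  | add u v _ _ hu hv => rw [map_add, hu, hv, smul_add]
  | smul c' u _ hu => rw [map_smul, hu, smul_comm]

/-- The Eichler--Shimura relation with character on `k ⊗ Y`. -/
lemma quadD_baseChange (h : InputsD gal T Dm N p ω x a d) (ℓ : ℕ) (hℓ : ℓ.Prime)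
    (hℓN : ¬ ℓ ∣ N * p) (A : ValuationSubring Qb) (hA : A.LiesOverPrime ℓ) (σ : GQ)
    (hσ : A.IsFrobeniusAt σ ℓ) (w : k ⊗[ℤ] Y) :
    rhoM gal k σ (rhoM gal k σ ((Dm ⟨ℓ, hℓ⟩).baseChange k w))
      - (T ⟨ℓ, hℓ⟩).baseChange k (rhoM gal k σ w) + (ℓ : k) • w = 0 := by
  have h1 := congrArg (fun f : Module.End ℤ Y => f.baseChange k) (h.quad ℓ hℓ hℓN A hA σ hσ)
  simp only [LinearMap.baseChange_add, LinearMap.baseChange_sub, LinearMap.baseChange_mul,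
    LinearMap.baseChange_smul, LinearMap.baseChange_one, LinearMap.baseChange_zero] at h1
  have h2 := congrArg (fun f : Module.End k (k ⊗[ℤ] Y) => f w) h1
  simp only [LinearMap.add_apply, LinearMap.sub_apply, Module.End.mul_apply,
    LinearMap.smul_apply, Module.End.one_apply, LinearMap.zero_apply] at h2
  rw [rhoM_apply]
  rw [← h2]
  congr 1
  rw [← Int.cast_smul_eq_zsmul k (ℓ : ℤ) w, Int.cast_natCast]

/-- The split quadratic relation for Frobenius elements on the orbit span. -/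
lemma rhoW_quadD (h : InputsD gal T Dm N p ω x a d) (ℓ : ℕ) (hℓ : ℓ.Prime)
    (hℓN : ¬ ℓ ∣ N * p) (A : ValuationSubring Qb) (hA : A.LiesOverPrime ℓ) (σ : GQ)
    (hσ : A.IsFrobeniusAt σ ℓ) {c e : k} (hce : c + e = a ⟨ℓ, hℓ⟩ / d ⟨ℓ, hℓ⟩)
    (hce' : c * e = (ℓ : k) / d ⟨ℓ, hℓ⟩) :
    (rhoW gal x σ - c • (1 : Module.End k (orbitSpan gal x))) *
      (rhoW gal x σ - e • (1 : Module.End k (orbitSpan gal x))) = 0 := by
  ext ⟨w, hw⟩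
  have hd := h.d_ne ⟨ℓ, hℓ⟩ hℓN
  have h1 := quadD_baseChange h ℓ hℓ hℓN A hA σ hσ w
  have hσw : rhoM gal k σ w ∈ orbitSpan gal x := orbitSpan_invariant x σ w hw
  rw [eigen_on_orbitSpan_of_comm (T ⟨ℓ, hℓ⟩) (h.commT ⟨ℓ, hℓ⟩) (h.eigenT ⟨ℓ, hℓ⟩ hℓN) hσw,
    eigen_on_orbitSpan_of_comm (Dm ⟨ℓ, hℓ⟩) (h.commD ⟨ℓ, hℓ⟩) (h.eigenD ⟨ℓ, hℓ⟩ hℓN) hw,
    map_smul, map_smul] at h1
  simp only [Module.End.mul_apply, LinearMap.sub_apply, LinearMap.smul_apply,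
    Module.End.one_apply, LinearMap.zero_apply, Submodule.coe_sub, Submodule.coe_smul,
    coe_rhoW_apply, Submodule.coe_zero, map_sub, map_smul]
  have ha : a ⟨ℓ, hℓ⟩ = (c + e) * d ⟨ℓ, hℓ⟩ := by rw [hce, div_mul_cancel₀ _ hd]
  have hl : (ℓ : k) = (c * e) * d ⟨ℓ, hℓ⟩ := by rw [hce', div_mul_cancel₀ _ hd]
  rw [ha, hl] at h1
  have h2 : d ⟨ℓ, hℓ⟩ • (rhoM gal k σ (rhoM gal k σ w) - c • rhoM gal k σ w -
      e • (rhoM gal k σ w - c • w)) = 0 := by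
    rw [← h1]
    module
  rcases smul_eq_zero.mp h2 with h3 | h3
  · exact absurd h3 hd
  · exact h3

/-- **Abstract assembly with character.** -/
theorem exists_residualRepD (h : InputsD gal T Dm N p ω x a d) :
    ∃ ρ : ResidualGaloisRep k,
      (∀ (ℓ : ℕ) (hℓ : ℓ.Prime), ¬ ℓ ∣ N * p → ∀ A : ValuationSubring Qb, A.LiesOverPrime ℓ →
        ∀ σ : GQ, A.IsFrobeniusAt σ ℓ →
          LinearMap.charpoly (ρ.ρ σ) = X ^ 2 - C (a ⟨ℓ, hℓ⟩ / d ⟨ℓ, hℓ⟩) * X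
            + C ((ℓ : k) / d ⟨ℓ, hℓ⟩)) ∧
      ∀ ℓ : ℕ, ℓ.Prime → ¬ ℓ ∣ N * p → ρ.IsUnramifiedAt ℓ := by
  classical
  obtain ⟨Lω, hLω, hωL⟩ := h.ω_level
  obtain ⟨L, hLfd, hLn, hLω_le, hLfix⟩ := exists_normal_level_fix k h.openStab x Lω hLω
  haveI := hLfd
  haveI := hLn
  haveI : FiniteDimensional k (orbitSpan gal x) :=
    FiniteDimensional.span_of_finite k (finite_orbit k x L hLfix)
  haveI : Nontrivial (orbitSpan gal x) :=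
    ⟨⟨⟨x, mem_orbitSpan_self x⟩, 0, fun h0 => h.x_ne (congrArg Subtype.val h0)⟩⟩
  have hρL : ∀ σ : GQ, Fixes L σ → rhoW gal x σ = 1 := fun σ hσ =>
    rhoW_eq_one_of_fixes hLfix hσ
  have hωL' : ∀ σ : GQ, Fixes L σ → ω σ = 1 := fun σ hσ => hωL σ (hσ.mono hLω_le)
  let P : Set (GQ × k) := {q | ∃ (ℓ : ℕ) (hℓ : ℓ.Prime), ¬ ℓ ∣ N * p ∧
    ∃ A : ValuationSubring Qb, A.LiesOverPrime ℓ ∧ A.IsFrobeniusAt q.1 ℓ ∧
      q.2 = a ⟨ℓ, hℓ⟩ / d ⟨ℓ, hℓ⟩}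
  have hP : ∀ σ b, (σ, b) ∈ P → ∃ c e : k, c + e = b ∧ c * e = (ω σ : k) ∧
      (rhoW gal x σ - c • (1 : Module.End k (orbitSpan gal x))) *
        (rhoW gal x σ - e • (1 : Module.End k (orbitSpan gal x))) = 0 := by
    rintro σ b ⟨ℓ, hℓ, hℓN, A, hA, hσ, rfl⟩
    obtain ⟨c, e, hce, hce'⟩ := h.split ⟨ℓ, hℓ⟩ hℓN
    refine ⟨c, e, hce, ?_, rhoW_quadD h ℓ hℓ hℓN A hA σ hσ hce hce'⟩
    rw [hce', h.ω_frob ℓ hℓ hℓN A hA σ hσ]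
  have hdense : ∀ g : GQ, ∃ σ b, (σ, b) ∈ P ∧ ∃ m : ℕ,
      rhoW gal x g = rhoW gal x σ ^ m ∧ ω g = ω σ ^ m := by
    intro g
    obtain ⟨ℓ, A, τ, j, hℓ, hℓN, hA, hτ, hpow⟩ := exists_frob_pow h.dense h.Np_ne L hLfd hLn g
    exact ⟨τ, a ⟨ℓ, hℓ⟩ / d ⟨ℓ, hℓ⟩, ⟨ℓ, hℓ, hℓN, A, hA, hτ, rfl⟩, j,
      hpow (rhoW gal x) hρL, hpow ω hωL'⟩
  obtain ⟨V, i1, i2, i3, ρV, hfin2, hker, hchar⟩ :=
    exists_two_dim_rep (rhoW gal x) ω P hP hdense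
  letI := i1
  letI := i2
  refine ⟨{ V := V, finrank_eq := hfin2, ρ := ρV,
            factorsThroughFiniteLevel := ⟨L, hLfd, fun σ hσ => hker σ (hρL σ hσ) (hωL' σ hσ)⟩ },
    ?_, ?_⟩
  · intro ℓ hℓ hℓN A hA σ hσ
    have := hchar σ (a ⟨ℓ, hℓ⟩ / d ⟨ℓ, hℓ⟩) ⟨ℓ, hℓ, hℓN, A, hA, hσ, rfl⟩
    rw [h.ω_frob ℓ hℓ hℓN A hA σ hσ] at this
    exact this
  · intro ℓ hℓ hℓN A hA σ hσ
    exact hker σ (rhoW_eq_one_of_gal_eq_one (h.unram ℓ hℓ hℓN A hA σ hσ))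
      (h.ω_inertia ℓ hℓ hℓN A hA σ hσ)

end Core

end Fermat.Agent.S48WR
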