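/-
S48 wall (W), seat R-ASM (helper93): `ResidualOne M` from the interface propositions
(IF-G1, IF-G2, IF-H1, IF-A); IF-H3 (open stabilisers) is proved here (generic theorem of cluster A).
Port of `S29/AsmWire.lean`, `AsmCyclo.lean`, `AsmFinal.lean`.
-/
import Mathlib
import Fermat.Agent.S48.W.Interfaces
import Fermat.Agent.S48.W.R.Core
import Fermat.Agent.Lib.Cyclo.OmegaK
import Fermat.Agent.F3.OpenStab
import Fermat.Agent.F3.FrobDensityLiteFinal

set_option autoImplicit false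
set_option linter.style.haveILetI false
set_option linter.unusedSectionVars false

noncomputable section

namespace Fermat.Agent.S48WR

open Fermat.Agent.F3 (GQ FrobDensityLite)
open Fermat.Agent.S29Core Fermat.Agent.S29Asm Fermat.Agent.S48W
open ModularCurve AlgebraicCurve
open scoped TensorProduct
open Polynomial

local notation "Qb" => AlgebraicClosure ℚ
local notation "Zb" => integralClosure ℤ ℂ

/-! ### IF-H3 -/

/-- **IF-H3**: every torsion point of `J₁(M)(ℚ̄)` has an open stabiliser. -/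
theorem torsionOpenStabOne (M : ℕ) [NeZero M] : TorsionOpenStabOne M :=
  fun _ hn x hx => Fermat.Agent.F3.torsion_open_stab (FOne M) hn x hx

/-! ### algebra of `φ : ℤ̄ → k` -/

/-- A monic quadratic with coefficients in `ℤ̄` splits over `ℤ̄`. -/
lemma exists_split_zbar (a b : Zb) : ∃ α β : Zb, α + β = a ∧ α * β = b := by
  obtain ⟨s, hs⟩ := IsAlgClosed.exists_eq_mul_self (discrim (1 : ℂ) (-(a : ℂ)) (b : ℂ))
  obtain ⟨z, hz⟩ := exists_quadratic_eq_zero (one_ne_zero) ⟨s, hs⟩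
  have hz' : z * z - (a : ℂ) * z + (b : ℂ) = 0 := by linear_combination hz
  have hint : IsIntegral Zb z := by
    refine ⟨X ^ 2 - C a * X + C b, ?_, ?_⟩
    · have h1 : (X ^ 2 - C a * X + C b : Zb[X]) = X ^ 2 - (C a * X - C b) := by ring
      rw [h1]
      apply Polynomial.monic_X_pow_sub
      refine lt_of_le_of_lt (Polynomial.degree_sub_le _ _) ?_
      refine max_lt ?_ ?_
      · exact lt_of_le_of_lt (Polynomial.degree_C_mul_X_le a) (by norm_num)
      · exact lt_of_le_of_lt Polynomial.degree_C_le (by norm_num)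
    · simp only [Polynomial.eval₂_add, Polynomial.eval₂_sub, Polynomial.eval₂_mul,
        Polynomial.eval₂_pow, Polynomial.eval₂_X, Polynomial.eval₂_C]
      have e1 : algebraMap Zb ℂ a = (a : ℂ) := rfl
      have e2 : algebraMap Zb ℂ b = (b : ℂ) := rfl
      rw [e1, e2]
      linear_combination hz'
  have hintZ : IsIntegral ℤ z := isIntegral_trans z hint
  refine ⟨⟨z, hintZ⟩, a - ⟨z, hintZ⟩, by ring, ?_⟩
  apply Subtype.ext
  have : (z : ℂ) * ((a : ℂ) - z) = (b : ℂ) := by linear_combination -hz'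
  simpa using this

/-- the image of `φ : ℤ̄ → k` (`char k = ℓ`) is a field: division by nonzero elements. -/
lemma exists_div_of_charP {ℓ : ℕ} (hℓ : ℓ.Prime) {k : Type} [Field k] [CharP k ℓ]
    (φ : Zb →+* k) (u v : Zb) (hv : φ v ≠ 0) : ∃ w : Zb, φ w * φ v = φ u := by
  haveI : Fact ℓ.Prime := ⟨hℓ⟩
  have hprime : (RingHom.ker φ).IsPrime := RingHom.ker_isPrime φ
  have hcomap : (RingHom.ker φ).comap (algebraMap ℤ Zb) = Ideal.span {(ℓ : ℤ)} := by
    ext n
    rw [Ideal.mem_comap, RingHom.mem_ker, Ideal.mem_span_singleton, eq_intCast, map_intCast]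
    exact CharP.intCast_eq_zero_iff k ℓ n
  have hmaxZ : (Ideal.span {(ℓ : ℤ)}).IsMaximal :=
    PrincipalIdealRing.isMaximal_of_irreducible
      (Nat.prime_iff_prime_int.mp hℓ).irreducible
  haveI : Algebra.IsIntegral ℤ Zb := inferInstance
  have hmax : (RingHom.ker φ).IsMaximal :=
    Ideal.isMaximal_of_isIntegral_of_isMaximal_comap (R := ℤ) (RingHom.ker φ)
      (by rw [hcomap]; exact hmaxZ)
  have hvker : v ∉ RingHom.ker φ := fun h => hv ((RingHom.mem_ker).mp h)
  obtain ⟨v', i, hi, hv'⟩ := hmax.exists_inv hvker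
  have h1 : φ v * φ v' = 1 := by
    have h2 := congrArg φ hv'
    rw [map_add, map_mul, map_one, (RingHom.mem_ker).mp hi, add_zero] at h2
    rw [mul_comm]
    exact h2
  refine ⟨u * v', ?_⟩
  rw [map_mul, mul_assoc, mul_comm (φ v') (φ v), h1, mul_one]

/-! ### the Galois representation on `J₁(M)[n]` -/

section Wire

variable (M n : ℕ) [NeZero M]

/-- The Galois action on `J₁(M)(ℚ̄)` as a `ℤ`-linear map. -/
def galLinOne (σ : GQ) : JOne M →ₗ[ℤ] JOne M :=
  (DistribSMul.toAddMonoidHom (JOne M) σ).toIntLinearMap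

/-- The Galois representation on the `n`-torsion of `J₁(M)`. -/
def galRepOne : GQ →* Module.End ℤ (JtorsOne M n) where
  toFun σ := (galLinOne M σ).restrict (by
    intro x hx
    rw [Submodule.mem_torsionBy_iff] at hx ⊢
    rw [← map_smul, hx, map_zero])
  map_one' := by
    ext x
    show (1 : GQ) • (x : JOne M) = x
    rw [one_smul]
  map_mul' σ τ := by
    ext x
    show (σ * τ) • (x : JOne M) = σ • τ • (x : JOne M)
    rw [mul_smul]

lemma coe_galRepOne_apply (σ : GQ) (x : JtorsOne M n) :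
    ((galRepOne M n σ x : JtorsOne M n) : JOne M) = σ • (x : JOne M) := rfl

lemma coe_heckeTorsOne_apply (p : Nat.Primes) (x : JtorsOne M n) :
    ((heckeTorsOne M n p x : JtorsOne M n) : JOne M) = heckeOne M p (x : JOne M) := rfl

lemma coe_diamondTorsOne_apply (d : (ZMod M)ˣ) (x : JtorsOne M n) :
    ((diamondTorsOne M n d x : JtorsOne M n) : JOne M) = diamondOne M d (x : JOne M) := rfl

lemma nsmul_coe_eq_zero_one (x : JtorsOne M n) : n • (x : JOne M) = 0 := by
  have := x.2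
  rw [Submodule.mem_torsionBy_iff] at this
  rwa [natCast_zsmul] at this

open Classical in
/-- the diamond operator of a prime (junk `1` if `p ∣ M`). -/
def diamondPrime (p : Nat.Primes) : Module.End ℤ (JtorsOne M n) :=
  if h : Nat.Coprime (p : ℕ) M then diamondTorsOne M n (ZMod.unitOfCoprime p h) else 1

lemma diamondPrime_of_coprime (p : Nat.Primes) (h : Nat.Coprime (p : ℕ) M) :
    diamondPrime M n p = diamondTorsOne M n (ZMod.unitOfCoprime p h) := by
  unfold diamondPrime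
  rw [dif_pos h]

end Wire

/-! ### the character `ω = χ_cyc · χ` -/

section Char

variable (M ℓ : ℕ) [NeZero M] [Fact ℓ.Prime] (k : Type) [Field k] [CharP k ℓ]

/-- `φ ∘ χ` as a character of `G_ℚ` (through `Gal(ℚ(ζ_M)/ℚ) = (ℤ/M)ˣ`). -/
def chiGal (φ : Zb →+* k) (χ : (ZMod M)ˣ →* Zbˣ) : GQ →* kˣ :=
  ((Units.map (φ : Zb →* k)).comp χ).comp (Fermat.Agent.Cyclo.modChar M)

/-- `ω = χ_cyc,ℓ · (φ ∘ χ)`. -/
def omegaChi (φ : Zb →+* k) (χ : (ZMod M)ˣ →* Zbˣ) : GQ →* kˣ :=
  Fermat.Agent.Cyclo.omegaK ℓ k * chiGal M k φ χ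

variable {M ℓ k}

lemma chiGal_frobenius (φ : Zb →+* k) (χ : (ZMod M)ˣ →* Zbˣ) {p : ℕ} (hp : p.Prime)
    (hpM : Nat.Coprime p M) (A : ValuationSubring Qb) (hA : A.LiesOverPrime p) (σ : GQ)
    (hσ : A.IsFrobeniusAt σ p) :
    chiGal M k φ χ σ = Units.map (φ : Zb →* k) (χ (ZMod.unitOfCoprime p hpM)) := by
  have hndvd : ¬ p ∣ M := fun h => hp.one_lt.ne' ((Nat.Coprime.eq_one_of_dvd hpM h))
  have h1 : Fermat.Agent.Cyclo.modChar M σ = ZMod.unitOfCoprime p hpM := by
    apply Units.ext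
    rw [Fermat.Agent.Cyclo.modChar_frobenius M hp hndvd A hA σ hσ, ZMod.coe_unitOfCoprime]
  show Units.map (φ : Zb →* k) (χ (Fermat.Agent.Cyclo.modChar M σ)) = _
  rw [h1]

lemma omegaChi_frobenius (φ : Zb →+* k) (χ : (ZMod M)ˣ →* Zbˣ) {p : ℕ} (hp : p.Prime)
    (hpM : Nat.Coprime p M) (hpℓ : p ≠ ℓ) (A : ValuationSubring Qb) (hA : A.LiesOverPrime p)
    (σ : GQ) (hσ : A.IsFrobeniusAt σ p) :
    ((omegaChi M ℓ k φ χ σ : kˣ) : k) = (p : k) * φ (χ (ZMod.unitOfCoprime p hpM) : Zb) := by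
  show ((Fermat.Agent.Cyclo.omegaK ℓ k σ * chiGal M k φ χ σ : kˣ) : k) = _
  rw [Units.val_mul, Fermat.Agent.Cyclo.omegaK_frobenius ℓ k hp hpℓ A hA σ hσ,
    chiGal_frobenius φ χ hp hpM A hA σ hσ]
  rfl

lemma omegaChi_inertia (φ : Zb →+* k) (χ : (ZMod M)ˣ →* Zbˣ) {p : ℕ} (hp : p.Prime)
    (hpM : ¬ p ∣ M) (hpℓ : p ≠ ℓ) (A : ValuationSubring Qb) (hA : A.LiesOverPrime p)
    (σ : GQ) (hσ : σ ∈ A.inertiaSubgroupIn ℚ) : omegaChi M ℓ k φ χ σ = 1 := by
  show Fermat.Agent.Cyclo.omegaK ℓ k σ * chiGal M k φ χ σ = 1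
  rw [Fermat.Agent.Cyclo.omegaK_inertia ℓ k hp hpℓ A hA σ hσ, one_mul]
  show Units.map (φ : Zb →* k) (χ (Fermat.Agent.Cyclo.modChar M σ)) = 1
  rw [Fermat.Agent.Cyclo.modChar_inertia M hp hpM A hA σ hσ, map_one, map_one]

lemma omegaChi_level (φ : Zb →+* k) (χ : (ZMod M)ˣ →* Zbˣ) :
    ∃ L : IntermediateField ℚ Qb, FiniteDimensional ℚ L ∧
      ∀ σ : GQ, Fixes L σ → omegaChi M ℓ k φ χ σ = 1 := by
  obtain ⟨L₁, hL₁, h₁⟩ := Fermat.Agent.Cyclo.omegaK_finiteLevel ℓ k
  obtain ⟨L₂, hL₂, -, h₂⟩ := Fermat.Agent.Cyclo.modChar_finiteLevel M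
  haveI := hL₁
  haveI := hL₂
  refine ⟨L₁ ⊔ L₂, IntermediateField.finiteDimensional_sup L₁ L₂, fun σ hσ => ?_⟩
  show Fermat.Agent.Cyclo.omegaK ℓ k σ * chiGal M k φ χ σ = 1
  rw [h₁ σ (fun x hx => hσ x (le_sup_left (a := L₁) (b := L₂) hx)), one_mul]
  show Units.map (φ : Zb →* k) (χ (Fermat.Agent.Cyclo.modChar M σ)) = 1
  rw [h₂ σ (fun x hx => hσ x (le_sup_right (a := L₁) (b := L₂) hx)), map_one, map_one]

end Char

/-! ### the assembly -/

/-- **R-ASM**: `ResidualOne M` from the interface propositions of blocks G, H, A. -/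
theorem residualOne_of_interfaces (M : ℕ) [NeZero M]
    (hU : TorsionUnramifiedOne M) (hQ : TorsionFrobQuadraticOne M)
    (hC : HeckeGaloisCommOne M) (hE : EigenclassOne M) : ResidualOne M := by
  intro ℓ hℓ k _ _ φ e
  classical
  haveI : Fact ℓ.Prime := ⟨hℓ⟩
  obtain ⟨x, hx0, hxT, hxD⟩ := hE ℓ hℓ k φ e
  have hMℓ : M * ℓ ≠ 0 := mul_ne_zero (NeZero.ne M) hℓ.ne_zero
  have hcop : ∀ p : ℕ, p.Prime → ¬ p ∣ M * ℓ → Nat.Coprime p M := fun p hp h =>
    (Nat.Prime.coprime_iff_not_dvd hp).mpr (fun hd => h (hd.mul_right ℓ))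
  have hne : ∀ p : ℕ, p.Prime → ¬ p ∣ M * ℓ → p ≠ ℓ := by
    rintro p - h rfl
    exact h (dvd_mul_left _ _)
  -- the eigenvalues
  let dd : Nat.Primes → k := fun p =>
    if h : Nat.Coprime (p : ℕ) M then φ ((e.χ (ZMod.unitOfCoprime p h))⁻¹ : Zbˣ) else 1
  have hdd : ∀ (p : Nat.Primes) (h : Nat.Coprime (p : ℕ) M),
      dd p = φ ((e.χ (ZMod.unitOfCoprime p h))⁻¹ : Zbˣ) := fun p h => by
    simp only [dd, dif_pos h]
  have hunit : ∀ u : Zbˣ, φ (u⁻¹ : Zbˣ) * φ (u : Zb) = 1 := fun u => by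
    rw [← map_mul, ← Units.val_mul, inv_mul_cancel, Units.val_one, map_one]
  have hdd_ne : ∀ (p : Nat.Primes), ¬ (p : ℕ) ∣ M * ℓ → dd p ≠ 0 := by
    intro p h
    rw [hdd p (hcop p p.2 h)]
    intro h0
    have := hunit (e.χ (ZMod.unitOfCoprime p (hcop p p.2 h)))
    rw [h0, zero_mul] at this
    exact zero_ne_one this
  have hdiv : ∀ (p : Nat.Primes) (h : Nat.Coprime (p : ℕ) M) (c : k),
      c / dd p = c * φ (e.χ (ZMod.unitOfCoprime p h) : Zb) := by
    intro p h c
    rw [hdd p h, div_eq_iff, mul_assoc, mul_comm (φ _) (φ _), hunit, mul_one]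
    intro h0
    have := hunit (e.χ (ZMod.unitOfCoprime p h))
    rw [h0, zero_mul] at this
    exact zero_ne_one this
  obtain ⟨n₀, hn₀⟩ := e.ne
  have hin : InputsD (galRepOne M ℓ) (heckeTorsOne M ℓ) (diamondPrime M ℓ) M ℓ
      (omegaChi M ℓ k φ e.χ) x (fun p => e.t p * dd p) dd :=
    { dense := Fermat.Agent.F3.frobDensityLite
      openStab := by
        intro y
        obtain ⟨L, hL, h⟩ := torsionOpenStabOne M ℓ hℓ.pos (y : JOne M)
          (nsmul_coe_eq_zero_one M ℓ y)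
        exact ⟨L, hL, fun σ hσ => Subtype.ext (h σ hσ)⟩
      commT := by
        intro p σ
        ext y
        exact hC.1 p σ (y : JOne M)
      commD := by
        intro p σ
        by_cases h : Nat.Coprime (p : ℕ) M
        · rw [diamondPrime_of_coprime M ℓ p h]
          ext y
          exact hC.2 _ σ (y : JOne M)
        · unfold diamondPrime
          rw [dif_neg h, one_mul, mul_one]
      unram := by
        intro p hp hpN A hA σ hσ
        ext y
        exact hU ℓ p hp hpN A hA σ hσ (y : JOne M) (nsmul_coe_eq_zero_one M ℓ y)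
      quad := by
        intro p hp hpN A hA σ hσ
        rw [diamondPrime_of_coprime M ℓ ⟨p, hp⟩ (hcop p hp hpN)]
        ext y
        have hpℓ : ¬ p ∣ ℓ := fun hd =>
          hne p hp hpN ((Nat.prime_dvd_prime_iff_eq hp hℓ).mp hd)
        have := hQ ℓ p hp (hcop p hp hpN) hpℓ A hA σ hσ (y : JOne M)
          (nsmul_coe_eq_zero_one M ℓ y)
        simp only [LinearMap.add_apply, LinearMap.sub_apply, Module.End.mul_apply,
          LinearMap.smul_apply, Module.End.one_apply, LinearMap.zero_apply, Submodule.coe_add,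
          Submodule.coe_sub, Submodule.coe_zero, coe_galRepOne_apply,
          coe_heckeTorsOne_apply, coe_diamondTorsOne_apply, natCast_zsmul]
        exact this
      x_ne := hx0
      eigenT := by
        intro p h
        rw [hxT p (hcop p p.2 h) (hne p p.2 h), hdd p (hcop p p.2 h)]
      eigenD := by
        intro p h
        rw [diamondPrime_of_coprime M ℓ p (hcop p p.2 h), hxD, hdd p (hcop p p.2 h)]
      d_ne := hdd_ne
      split := by
        intro p h
        have hpM := hcop p p.2 h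
        -- `t p = φ w`
        have hw : ∃ w : Zb, φ w = e.t p := by
          have heig := e.eig p hpM n₀
          obtain ⟨w, hw⟩ := exists_div_of_charP hℓ φ
            (e.c (p * n₀) + (((p : ℕ) : ℤ) : Zb) * (e.χ (ZMod.unitOfCoprime p hpM) : Zb) *
              (if (p : ℕ) ∣ n₀ then e.c (n₀ / p) else 0)) (e.c n₀) hn₀
          refine ⟨w, ?_⟩
          have h2 : φ w * φ (e.c n₀) = e.t p * φ (e.c n₀) := by
            rw [hw, ← heig, map_add, map_mul, map_mul, map_intCast, Int.cast_natCast]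
            split_ifs <;> simp
          exact mul_right_cancel₀ hn₀ h2
        obtain ⟨w, hw⟩ := hw
        obtain ⟨α, β, h1, h2⟩ := exists_split_zbar w
          ((((p : ℕ) : ℤ) : Zb) * (e.χ (ZMod.unitOfCoprime p hpM) : Zb))
        refine ⟨φ α, φ β, ?_, ?_⟩
        · rw [← map_add, h1, hw, mul_div_assoc, div_self (hdd_ne p h), mul_one]
        · rw [← map_mul, h2, hdiv p hpM, map_mul, map_intCast, Int.cast_natCast]
      ω_frob := by
        intro p hp hpN A hA σ hσ
        rw [omegaChi_frobenius φ e.χ hp (hcop p hp hpN) (hne p hp hpN) A hA σ hσ,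
          hdiv ⟨p, hp⟩ (hcop p hp hpN)]
      ω_inertia := by
        intro p hp hpN A hA σ hσ
        exact omegaChi_inertia φ e.χ hp (fun hd => hpN (hd.mul_right ℓ)) (hne p hp hpN) A hA σ hσ
      ω_level := omegaChi_level φ e.χ
      Np_ne := hMℓ }
  obtain ⟨ρ, hρ1, hρ2⟩ := exists_residualRepD hin
  refine ⟨ρ, hρ2, ?_⟩
  intro p hpM hpℓ A hA σ hσ
  have hpN : ¬ (p : ℕ) ∣ M * ℓ := by
    intro hd
    rcases (Nat.Prime.dvd_mul p.2).mp hd with h | h
    · exact p.2.one_lt.ne' (Nat.Coprime.eq_one_of_dvd hpM h)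
    · exact hpℓ ((Nat.prime_dvd_prime_iff_eq p.2 hℓ).mp h)
  have := hρ1 p p.2 hpN A hA σ hσ
  rw [this]
  have hp' : (⟨(p : ℕ), p.2⟩ : Nat.Primes) = p := Subtype.ext rfl
  rw [hp']
  have e1 : e.t p * dd p / dd p = e.t p := by
    rw [mul_div_assoc, div_self (hdd_ne p hpN), mul_one]
  have e2 : ((p : ℕ) : k) / dd p
      = ((p : ℕ) : k) * φ (e.χ (ZMod.unitOfCoprime p hpM) : Zb) := hdiv p hpM _
  rw [e1, e2]

end Fermat.Agent.S48WR
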