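/-
S48 wall (W), seat R-ASM (helper93), version AT A FIXED TORSION ORDER `ℓ`.

The assembly `residualOne_of_interfaces` uses the interface propositions of blocks G and A only at
the torsion order `n = ℓ`; here they are stated at `ℓ` (`TorsionUnramifiedOneAt M ℓ`,
`TorsionFrobQuadraticOneAt M ℓ`, `EigenclassOneAt M ℓ`), so that the providers may use `ℓ ≥ 5`,
`ℓ ∣ M` (in the application `M = N ℓ`), e.g. for the transfer from an auxiliary level of degree
prime to `ℓ` at the primes `p = 2, 3`.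

* `residualOneAt_of_interfaces` : the residual representation at `(M, ℓ)`;
* `wallStatementFrom_of_at`     : the wall for `ℓ ≥ ℓ₀` from block P (`ProductEigen`) and the
                                  interfaces at all `(M, ℓ)` with `ℓ₀ ≤ ℓ`, `ℓ ∣ M`.
-/
import Mathlib
import Fermat.Agent.S48.W.R.Asm
import Fermat.Agent.S48.W.WallAsmP

set_option autoImplicit false
set_option linter.style.haveILetI false
set_option linter.unusedSectionVars false

noncomputable section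

namespace Fermat.Agent.S48W

open ModularCurve AlgebraicCurve CongruenceSubgroup
open scoped TensorProduct MatrixGroups ModularForm

local notation "Kb" => AlgebraicClosure ℚ
local notation "GK" => (AlgebraicClosure ℚ ≃ₐ[ℚ] AlgebraicClosure ℚ)

/-- (IF-G1 at `ℓ`) inertia at `p ∤ M ℓ` acts trivially on `J₁(M)[ℓ]`. -/
def TorsionUnramifiedOneAt (M : ℕ) [NeZero M] (ℓ : ℕ) : Prop :=
  ∀ (p : ℕ), p.Prime → ¬ p ∣ M * ℓ →
    ∀ A : ValuationSubring Kb, A.LiesOverPrime p →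
      ∀ σ ∈ A.inertiaSubgroupIn ℚ, ∀ x : JOne M, ℓ • x = 0 → σ • x = x

/-- (IF-G2 at `ℓ`) Eichler-Shimura on `J₁(M)[ℓ]`: `σ² δ_p x - T_p σ x + p x = 0` for a Frobenius
`σ` at `p ∤ M ℓ`. -/
def TorsionFrobQuadraticOneAt (M : ℕ) [NeZero M] (ℓ : ℕ) : Prop :=
  ∀ (p : ℕ) (hp : p.Prime) (hpM : Nat.Coprime p M), p ≠ ℓ →
    ∀ A : ValuationSubring Kb, A.LiesOverPrime p →
      ∀ σ : GK, A.IsFrobeniusAt σ p → ∀ x : JOne M, ℓ • x = 0 →
        σ • σ • (diamondOne M (ZMod.unitOfCoprime p hpM) x)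
          - heckeOne M ⟨p, hp⟩ (σ • x) + p • x = 0

/-- (IF-A at `ℓ`) the mod-`ℓ` eigen-class. -/
def EigenclassOneAt (M : ℕ) [NeZero M] (ℓ : ℕ) : Prop :=
  ∀ (k : Type) [Field k] [CharP k ℓ] (φ : integralClosure ℤ ℂ →+* k)
    (e : ModEigen M k φ),
    ∃ x : k ⊗[ℤ] JtorsOne M ℓ, x ≠ 0 ∧
      (∀ (p : Nat.Primes) (hpM : Nat.Coprime (p : ℕ) M), (p : ℕ) ≠ ℓ →
        (heckeTorsOne M ℓ p).baseChange k x
          = (e.t p * φ ((e.χ (ZMod.unitOfCoprime p hpM))⁻¹ : (integralClosure ℤ ℂ)ˣ)) • x) ∧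
      ∀ d : (ZMod M)ˣ, (diamondTorsOne M ℓ d).baseChange k x
          = φ ((e.χ d)⁻¹ : (integralClosure ℤ ℂ)ˣ) • x

/-- (IF-R at `ℓ`) the residual representation of a mod-`φ` eigenvector, `char k = ℓ`. -/
def ResidualOneAt (M : ℕ) [NeZero M] (ℓ : ℕ) : Prop :=
  ∀ (k : Type) [Field k] [CharP k ℓ] (φ : integralClosure ℤ ℂ →+* k)
    (e : ModEigen M k φ),
    ∃ ρ : ResidualGaloisRep k,
      (∀ p : ℕ, p.Prime → ¬ p ∣ M * ℓ → ρ.IsUnramifiedAt p) ∧
      ∀ (p : Nat.Primes) (hpM : Nat.Coprime (p : ℕ) M), (p : ℕ) ≠ ℓ →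
        ∀ A : ValuationSubring Kb, A.LiesOverPrime p →
          ∀ σ : GK, A.IsFrobeniusAt σ p →
            LinearMap.charpoly (ρ.ρ σ) = Polynomial.X ^ 2 - Polynomial.C (e.t p) * Polynomial.X
              + Polynomial.C (((p : ℕ) : k) *
                  φ (e.χ (ZMod.unitOfCoprime p hpM) : integralClosure ℤ ℂ))

theorem torsionUnramifiedOneAt_of {M : ℕ} [NeZero M] (h : TorsionUnramifiedOne M) (ℓ : ℕ) :
    TorsionUnramifiedOneAt M ℓ := fun p hp hpN => h ℓ p hp hpN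

theorem torsionFrobQuadraticOneAt_of {M : ℕ} [NeZero M] (h : TorsionFrobQuadraticOne M) {ℓ : ℕ}
    (hℓ : ℓ.Prime) : TorsionFrobQuadraticOneAt M ℓ := fun p hp hpM hpℓ =>
  h ℓ p hp hpM (fun hd => hpℓ ((Nat.prime_dvd_prime_iff_eq hp hℓ).mp hd))

theorem eigenclassOneAt_of {M : ℕ} [NeZero M] (h : EigenclassOne M) {ℓ : ℕ} (hℓ : ℓ.Prime) :
    EigenclassOneAt M ℓ := fun k _ _ φ e => h ℓ hℓ k φ e

end Fermat.Agent.S48W

namespace Fermat.Agent.S48WR

open Fermat.Agent.F3 (GQ FrobDensityLite)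
open Fermat.Agent.S29Core Fermat.Agent.S29Asm Fermat.Agent.S48W
open ModularCurve AlgebraicCurve
open scoped TensorProduct
open Polynomial

local notation "Qb" => AlgebraicClosure ℚ
local notation "Zb" => integralClosure ℤ ℂ

/-- **R-ASM at `ℓ`**: `ResidualOneAt M ℓ` from the interface propositions at the torsion order
`ℓ`. -/
theorem residualOneAt_of_interfaces (M : ℕ) [NeZero M] (ℓ : ℕ) (hℓ : ℓ.Prime)
    (hU : TorsionUnramifiedOneAt M ℓ) (hQ : TorsionFrobQuadraticOneAt M ℓ)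
    (hC : HeckeGaloisCommOne M) (hE : EigenclassOneAt M ℓ) : ResidualOneAt M ℓ := by
  intro k _ _ φ e
  classical
  haveI : Fact ℓ.Prime := ⟨hℓ⟩
  obtain ⟨x, hx0, hxT, hxD⟩ := hE k φ e
  have hMℓ : M * ℓ ≠ 0 := mul_ne_zero (NeZero.ne M) hℓ.ne_zero
  have hcop : ∀ p : ℕ, p.Prime → ¬ p ∣ M * ℓ → Nat.Coprime p M := fun p hp h =>
    (Nat.Prime.coprime_iff_not_dvd hp).mpr (fun hd => h (hd.mul_right ℓ))
  have hne : ∀ p : ℕ, p.Prime → ¬ p ∣ M * ℓ → p ≠ ℓ := by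
    rintro p - h rfl
    exact h (dvd_mul_left _ _)
  -- the eigenvalues
  let dd : Nat.Primes → k := fun p =>
    if h : Nat.Coprime (p : ℕ) M then φ ((e.χ (ZMod.unitOfCoprime p h))⁻¹ : Zbˣ) else 1
  have hdd : ∀ (p : Nat.Primes) (h : Nat.Coprime (p : ℕ) M),
      dd p = φ ((e.χ (ZMod.unitOfCoprime p h))⁻¹ : Zbˣ) := fun p h => by
    simp only [dd, dif_pos h]
  have hunit : ∀ u : Zbˣ, φ (u⁻¹ : Zbˣ) * φ (u : Zb) = 1 := fun u => by
    rw [← map_mul, ← Units.val_mul, inv_mul_cancel, Units.val_one, map_one]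
  have hdd_ne : ∀ (p : Nat.Primes), ¬ (p : ℕ) ∣ M * ℓ → dd p ≠ 0 := by
    intro p h
    rw [hdd p (hcop p p.2 h)]
    intro h0
    have := hunit (e.χ (ZMod.unitOfCoprime p (hcop p p.2 h)))
    rw [h0, zero_mul] at this
    exact zero_ne_one this
  have hdiv : ∀ (p : Nat.Primes) (h : Nat.Coprime (p : ℕ) M) (c : k),
      c / dd p = c * φ (e.χ (ZMod.unitOfCoprime p h) : Zb) := by
    intro p h c
    rw [hdd p h, div_eq_iff, mul_assoc, mul_comm (φ _) (φ _), hunit, mul_one]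
    intro h0
    have := hunit (e.χ (ZMod.unitOfCoprime p h))
    rw [h0, zero_mul] at this
    exact zero_ne_one this
  obtain ⟨n₀, hn₀⟩ := e.ne
  have hin : InputsD (galRepOne M ℓ) (heckeTorsOne M ℓ) (diamondPrime M ℓ) M ℓ
      (omegaChi M ℓ k φ e.χ) x (fun p => e.t p * dd p) dd :=
    { dense := Fermat.Agent.F3.frobDensityLite
      openStab := by
        intro y
        obtain ⟨L, hL, h⟩ := torsionOpenStabOne M ℓ hℓ.pos (y : JOne M)
          (nsmul_coe_eq_zero_one M ℓ y)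
        exact ⟨L, hL, fun σ hσ => Subtype.ext (h σ hσ)⟩
      commT := by
        intro p σ
        ext y
        exact hC.1 p σ (y : JOne M)
      commD := by
        intro p σ
        by_cases h : Nat.Coprime (p : ℕ) M
        · rw [diamondPrime_of_coprime M ℓ p h]
          ext y
          exact hC.2 _ σ (y : JOne M)
        · unfold diamondPrime
          rw [dif_neg h, one_mul, mul_one]
      unram := by
        intro p hp hpN A hA σ hσ
        ext y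
        exact hU p hp hpN A hA σ hσ (y : JOne M) (nsmul_coe_eq_zero_one M ℓ y)
      quad := by
        intro p hp hpN A hA σ hσ
        rw [diamondPrime_of_coprime M ℓ ⟨p, hp⟩ (hcop p hp hpN)]
        ext y
        have := hQ p hp (hcop p hp hpN) (hne p hp hpN) A hA σ hσ (y : JOne M)
          (nsmul_coe_eq_zero_one M ℓ y)
        simp only [LinearMap.add_apply, LinearMap.sub_apply, Module.End.mul_apply,
          LinearMap.smul_apply, Module.End.one_apply, LinearMap.zero_apply, Submodule.coe_add,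
          Submodule.coe_sub, Submodule.coe_zero, coe_galRepOne_apply,
          coe_heckeTorsOne_apply, coe_diamondTorsOne_apply, natCast_zsmul]
        exact this
      x_ne := hx0
      eigenT := by
        intro p h
        rw [hxT p (hcop p p.2 h) (hne p p.2 h), hdd p (hcop p p.2 h)]
      eigenD := by
        intro p h
        rw [diamondPrime_of_coprime M ℓ p (hcop p p.2 h), hxD, hdd p (hcop p p.2 h)]
      d_ne := hdd_ne
      split := by
        intro p h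
        have hpM := hcop p p.2 h
        -- `t p = φ w`
        have hw : ∃ w : Zb, φ w = e.t p := by
          have heig := e.eig p hpM n₀
          obtain ⟨w, hw⟩ := exists_div_of_charP hℓ φ
            (e.c (p * n₀) + (((p : ℕ) : ℤ) : Zb) * (e.χ (ZMod.unitOfCoprime p hpM) : Zb) *
              (if (p : ℕ) ∣ n₀ then e.c (n₀ / p) else 0)) (e.c n₀) hn₀
          refine ⟨w, ?_⟩
          have h2 : φ w * φ (e.c n₀) = e.t p * φ (e.c n₀) := by
            rw [hw, ← heig, map_add, map_mul, map_mul, map_intCast, Int.cast_natCast]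
            split_ifs <;> simp
          exact mul_right_cancel₀ hn₀ h2
        obtain ⟨w, hw⟩ := hw
        obtain ⟨α, β, h1, h2⟩ := exists_split_zbar w
          ((((p : ℕ) : ℤ) : Zb) * (e.χ (ZMod.unitOfCoprime p hpM) : Zb))
        refine ⟨φ α, φ β, ?_, ?_⟩
        · rw [← map_add, h1, hw, mul_div_assoc, div_self (hdd_ne p h), mul_one]
        · rw [← map_mul, h2, hdiv p hpM, map_mul, map_intCast, Int.cast_natCast]
      ω_frob := by
        intro p hp hpN A hA σ hσ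
        rw [omegaChi_frobenius φ e.χ hp (hcop p hp hpN) (hne p hp hpN) A hA σ hσ,
          hdiv ⟨p, hp⟩ (hcop p hp hpN)]
      ω_inertia := by
        intro p hp hpN A hA σ hσ
        exact omegaChi_inertia φ e.χ hp (fun hd => hpN (hd.mul_right ℓ)) (hne p hp hpN) A hA σ hσ
      ω_level := omegaChi_level φ e.χ
      Np_ne := hMℓ }
  obtain ⟨ρ, hρ1, hρ2⟩ := exists_residualRepD hin
  refine ⟨ρ, hρ2, ?_⟩
  intro p hpM hpℓ A hA σ hσ
  have hpN : ¬ (p : ℕ) ∣ M * ℓ := by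
    intro hd
    rcases (Nat.Prime.dvd_mul p.2).mp hd with h | h
    · exact p.2.one_lt.ne' (Nat.Coprime.eq_one_of_dvd hpM h)
    · exact hpℓ ((Nat.prime_dvd_prime_iff_eq p.2 hℓ).mp h)
  have := hρ1 p p.2 hpN A hA σ hσ
  rw [this]
  have hp' : (⟨(p : ℕ), p.2⟩ : Nat.Primes) = p := Subtype.ext rfl
  rw [hp']
  have e1 : e.t p * dd p / dd p = e.t p := by
    rw [mul_div_assoc, div_self (hdd_ne p hpN), mul_one]
  have e2 : ((p : ℕ) : k) / dd p
      = ((p : ℕ) : k) * φ (e.χ (ZMod.unitOfCoprime p hpM) : Zb) := hdiv p hpM _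
  rw [e1, e2]

end Fermat.Agent.S48WR

namespace Fermat.Agent.S48W

open ModularCurve AlgebraicCurve CongruenceSubgroup
open scoped TensorProduct MatrixGroups ModularForm

/-- **W-WIRE at `ℓ`**: the wall for `ℓ ≥ ℓ₀` from `ProductEigen` and the residual
representations at the pairs `(M, ℓ)` with `ℓ₀ ≤ ℓ`, `ℓ ∣ M`. -/
theorem wallStatementFrom_of_residualAt (ℓ₀ : ℕ) (hP : ProductEigen)
    (hR : ∀ (M : ℕ) [NeZero M] (ℓ : ℕ), ℓ.Prime → ℓ₀ ≤ ℓ → ℓ ∣ M → ResidualOneAt M ℓ) :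
    WallStatementFrom ℓ₀ := by
  intro N _ ε f c a hc hne hK hneb hT ℓ hℓ hℓN hℓ₀ k _ _ φ
  obtain ⟨hNe, e, het, heχ⟩ := hP N ε f c a hc hne hK hneb hT ℓ hℓ hℓN k φ
  haveI : NeZero (N * ℓ) := hNe
  obtain ⟨ρ, hρ1, hρ2⟩ := hR (N * ℓ) ℓ hℓ hℓ₀ (dvd_mul_left ℓ N) k φ e
  refine ⟨ρ, fun p hp hpN => hρ1 p hp ?_, ?_⟩
  · intro hd
    rcases (Nat.Prime.dvd_mul hp).mp hd with h | h
    · exact hpN h
    · exact hpN (h.mul_left N)
  · intro p hp hpN hpℓ A hA σ hσ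
    have hpℓ' : Nat.Coprime p ℓ := (Nat.coprime_primes hp hℓ).mpr hpℓ
    have hpM : Nat.Coprime p (N * ℓ) := Nat.Coprime.mul_right hpN hpℓ'
    have := hρ2 ⟨p, hp⟩ hpM hpℓ A hA σ hσ
    rw [this, het ⟨p, hp⟩ hpM]
    have h2 := heχ ⟨p, hp⟩ hpM hpN
    simp only at h2
    rw [h2]

/-- **W-WIRE at `ℓ`**: the wall for `ℓ ≥ ℓ₀` from `ProductEigen` and the interface propositions of
blocks G, H, A at the pairs `(M, ℓ)` with `ℓ₀ ≤ ℓ`, `ℓ ∣ M`. -/
theorem wallStatementFrom_of_at (ℓ₀ : ℕ) (hP : ProductEigen)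
    (hU : ∀ (M : ℕ) [NeZero M] (ℓ : ℕ), ℓ.Prime → ℓ₀ ≤ ℓ → ℓ ∣ M → TorsionUnramifiedOneAt M ℓ)
    (hQ : ∀ (M : ℕ) [NeZero M] (ℓ : ℕ), ℓ.Prime → ℓ₀ ≤ ℓ → ℓ ∣ M → TorsionFrobQuadraticOneAt M ℓ)
    (hC : ∀ (M : ℕ) [NeZero M], ℓ₀ ≤ M → HeckeGaloisCommOne M)
    (hE : ∀ (M : ℕ) [NeZero M] (ℓ : ℕ), ℓ.Prime → ℓ₀ ≤ ℓ → ℓ ∣ M → EigenclassOneAt M ℓ) :
    WallStatementFrom ℓ₀ :=
  wallStatementFrom_of_residualAt ℓ₀ hP fun M _ ℓ hℓ hℓ₀ hℓM =>
    Fermat.Agent.S48WR.residualOneAt_of_interfaces M ℓ hℓ (hU M ℓ hℓ hℓ₀ hℓM)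
      (hQ M ℓ hℓ hℓ₀ hℓM)
      (hC M (hℓ₀.trans (Nat.le_of_dvd (Nat.pos_of_ne_zero (NeZero.ne M)) hℓM)))
      (hE M ℓ hℓ hℓ₀ hℓM)

end Fermat.Agent.S48W
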